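import Mathlib
import Fermat.Prelude.Def_CuspForm_HeckeAlgebra
import Fermat.Prelude.Def_FLTPrelim_Modularity
import Fermat.Prelude.Thm_ModularFormClass_qCoeff_heckeT
import Fermat.Prelude.Thm_UpperHalfPlane_eq_of_forall_qCoeff_eq
import Fermat.Prelude.Thm_CongruenceSubgroup_one_mem_strictPeriods_Gamma0

set_option autoImplicit false

namespace Fermat.Agent.GAL.ModP

open ModularFormClass UpperHalfPlane

variable {N : ℕ}

theorem one_mem_strictPeriods (N : ℕ) :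
    (1 : ℝ) ∈ ((CongruenceSubgroup.Gamma0 N : Subgroup (Matrix.SpecialLinearGroup (Fin 2) ℤ)) :
      Subgroup (Matrix.GeneralLinearGroup (Fin 2) ℝ)).strictPeriods :=
  CongruenceSubgroup.one_mem_strictPeriods_Gamma0 N

theorem qCoeff_zero_cusp (g : CuspForm (CongruenceSubgroup.Gamma0 N) 2) : qCoeff g 0 = 0 :=
  CuspFormClass.qExpansion_coeff_zero g one_pos (one_mem_strictPeriods N)

theorem qCoeff_smul_cusp (a : ℂ) (g : CuspForm (CongruenceSubgroup.Gamma0 N) 2) (n : ℕ) :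
    qCoeff (a • g : CuspForm (CongruenceSubgroup.Gamma0 N) 2) n = a * qCoeff g n := by
  unfold qCoeff
  have h : (⇑(a • g : CuspForm (CongruenceSubgroup.Gamma0 N) 2) : ℍ → ℂ) = a • (⇑g : ℍ → ℂ) := by
    ext τ
    simp
  rw [h, ModularForm.qExpansion_smul one_pos (one_mem_strictPeriods N) a g]
  simp

theorem cusp_ext_qCoeff (f g : CuspForm (CongruenceSubgroup.Gamma0 N) 2)
    (h : ∀ n, qCoeff f n = qCoeff g n) : f = g := by
  have hc : Fact (IsCusp OnePoint.infty ((CongruenceSubgroup.Gamma0 N :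
      Subgroup (Matrix.SpecialLinearGroup (Fin 2) ℤ)) :
      Subgroup (Matrix.GeneralLinearGroup (Fin 2) ℝ))) :=
    ⟨Subgroup.isCusp_of_mem_strictPeriods one_pos (one_mem_strictPeriods N)⟩
  apply DFunLike.coe_injective
  exact UpperHalfPlane.eq_of_forall_qCoeff_eq
    (SlashInvariantFormClass.periodic_comp_ofComplex f (one_mem_strictPeriods N))
    (CuspFormClass.holo f) (ModularFormClass.bdd_at_infty f)
    (SlashInvariantFormClass.periodic_comp_ofComplex g (one_mem_strictPeriods N))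
    (CuspFormClass.holo g) (ModularFormClass.bdd_at_infty g) h

theorem coeffHeckeT_eigen {g : CuspForm (CongruenceSubgroup.Gamma0 N) 2}
    (hg : g.IsNormalizedEigenform) {ℓ : ℕ} (hℓ : ℓ.Prime) (hℓN : ¬ ℓ ∣ N) (n : ℕ) :
    ModularForm.coeffHeckeT 2 ℓ (qCoeff g) n = qCoeff g ℓ * qCoeff g n := by
  rw [ModularForm.coeffHeckeT_apply]
  have hz : ((ℓ : ℂ) ^ ((2 : ℤ) - 1)) = ℓ := by norm_num
  rw [hz]
  rcases Nat.eq_zero_or_pos n with rfl | hn
  · simp [qCoeff_zero_cusp]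
  obtain ⟨r, m, hm, rfl⟩ := Nat.exists_eq_pow_mul_and_not_dvd hn.ne' ℓ hℓ.ne_one
  have hcop : ∀ s : ℕ, (ℓ ^ s).Coprime m := fun s =>
    Nat.Coprime.pow_left s ((Nat.Prime.coprime_iff_not_dvd hℓ).2 hm)
  have e1 : ℓ ^ r * m * ℓ = ℓ ^ (r + 1) * m := by ring
  rw [e1, hg.qCoeff_mul_of_coprime _ _ (hcop _), hg.qCoeff_mul_of_coprime _ _ (hcop _)]
  cases r with
  | zero =>
    have : ¬ ℓ ∣ ℓ ^ 0 * m := by simpa using hm
    rw [if_neg this]
    simp [hg.qCoeff_one]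
  | succ s =>
    have hd : ℓ ∣ ℓ ^ (s + 1) * m := Dvd.dvd.mul_right (dvd_pow_self ℓ (Nat.succ_ne_zero s)) m
    have e2 : ℓ ^ (s + 1) * m / ℓ = ℓ ^ s * m := by
      rw [pow_succ, mul_assoc, mul_comm ℓ m, ← mul_assoc]
      exact Nat.mul_div_cancel _ hℓ.pos
    rw [if_pos hd, e2, hg.qCoeff_mul_of_coprime _ _ (hcop _),
      hg.qCoeff_prime_pow_of_not_dvd ℓ s hℓ hℓN]
    ring

/-- A normalized eigenform (in the sense of multiplicative `q`-coefficients) is an eigenvector of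
the Hecke operators `T_ℓ`, `ℓ ∤ N`. -/
theorem heckeTLin_eq_smul {g : CuspForm (CongruenceSubgroup.Gamma0 N) 2}
    (hg : g.IsNormalizedEigenform) {ℓ : ℕ} (hℓ : ℓ.Prime) (hℓN : ¬ ℓ ∣ N) :
    CuspForm.heckeTLin 2 hℓ hℓN g = qCoeff g ℓ • g := by
  apply cusp_ext_qCoeff
  intro n
  rw [qCoeff_smul_cusp, CuspForm.coe_heckeTLin_apply,
    ModularFormClass.qCoeff_heckeT g (one_mem_strictPeriods N) hℓ.ne_zero, coeffHeckeT_eigen hg hℓ hℓN]

theorem eigenform_ne_zero {g : CuspForm (CongruenceSubgroup.Gamma0 N) 2}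
    (hg : g.IsNormalizedEigenform) : g ≠ 0 := by
  rintro rfl
  have h1 := hg.qCoeff_one
  have h0 : qCoeff (⇑(0 : CuspForm (CongruenceSubgroup.Gamma0 N) 2)) 1 = 0 := by
    have := qCoeff_smul_cusp (N := N) 0 0 1
    simpa using this
  rw [h0] at h1
  exact zero_ne_one h1

end Fermat.Agent.GAL.ModP
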