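import Mathlib
import Fermat.Prelude.Def_GaloisRep_Residual
import Fermat.Agent.Lib.FrobeniusVal
import Fermat.Agent.S05.Inertia

set_option autoImplicit false

namespace Fermat.Agent.GAL.ModP

open Fermat.Agent.Lib.FrobeniusVal

section General

variable {K L : Type*} [Field K] [Field L] [Algebra K L]

theorem frobenius_congr (A : ValuationSubring L) {σ : L ≃ₐ[K] L} {q : ℕ}
    (h : A.IsFrobeniusAt σ q) {x : L} (hx : x ∈ A) : σ x - x ^ q ∈ A.nonunits := by
  obtain ⟨hσ, hq⟩ := h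
  have h2 := hq (IsLocalRing.residue A ⟨x, hx⟩)
  rw [← IsLocalRing.ResidueField.residue_smul, ← map_pow] at h2
  have h3 : ((⟨σ, hσ⟩ : A.decompositionSubgroup K) • (⟨x, hx⟩ : A)) - (⟨x, hx⟩ : A) ^ q ∈
      IsLocalRing.maximalIdeal A := by
    rw [← IsLocalRing.residue_eq_zero_iff, map_sub, h2, sub_self]
  rw [ValuationSubring.valuation_lt_one_iff] at h3
  rw [ValuationSubring.mem_nonunits_iff]
  exact h3

theorem inertia_congr' (A : ValuationSubring L) {σ : L ≃ₐ[K] L} (hσ : σ ∈ A.inertiaSubgroupIn K)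
    {x : L} (hx : x ∈ A) : σ x - x ∈ A.nonunits := by
  rw [ValuationSubring.mem_nonunits_iff]
  exact Fermat.Agent.S05.inertia_congr A hσ ((ValuationSubring.valuation_le_one_iff A x).2 hx)

/-- Roots of unity of prime order `p` stay distinct modulo a place not above `p`. -/
theorem natCast_eq_of_pow_sub_pow_mem (A : ValuationSubring L) {ℓ p : ℕ} (hℓ : ℓ.Prime)
    (hp : p.Prime) (hA : A.LiesOverPrime ℓ) (hℓp : ℓ ≠ p) {ζ : L} (hζ : IsPrimitiveRoot ζ p)
    {a b : ℕ} (h : ζ ^ a - ζ ^ b ∈ A.nonunits) : (a : ZMod p) = (b : ZMod p) := by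
  by_contra hne
  have hζA : ζ ∈ A := integral_mem A ⟨Polynomial.X ^ p - 1,
    Polynomial.monic_X_pow_sub_C (1 : ℤ) hp.ne_zero, by simp [hζ.pow_eq_one]⟩
  set c : ℕ := b + (p - 1) * a with hc
  have hpa : ζ ^ ((p - 1) * a) * ζ ^ a = 1 := by
    rw [← pow_add]
    have : (p - 1) * a + a = p * a := by
      obtain ⟨m, rfl⟩ : ∃ m, p = m + 1 := ⟨p - 1, (Nat.succ_pred_eq_of_pos hp.pos).symm⟩
      simp only [Nat.add_sub_cancel]
      ring
    rw [this, pow_mul, hζ.pow_eq_one, one_pow]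
  have h1 : 1 - ζ ^ c ∈ A.nonunits := by
    have : 1 - ζ ^ c = (ζ ^ a - ζ ^ b) * ζ ^ ((p - 1) * a) := by
      rw [hc, pow_add, sub_mul, mul_comm (ζ ^ a), hpa]
    rw [this]
    exact mul_mem_nonunits A h (pow_mem hζA _)
  have hcop : c.Coprime p := by
    rw [Nat.coprime_comm, Nat.Prime.coprime_iff_not_dvd hp]
    intro hdvd
    apply hne
    have h2 : ((c : ℕ) : ZMod p) = 0 := (ZMod.natCast_eq_zero_iff c p).2 hdvd
    rw [hc] at h2
    push_cast at h2
    rw [Nat.cast_sub hp.one_le] at h2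
    simp only [CharP.cast_eq_zero, Nat.cast_one, zero_sub, neg_mul, one_mul] at h2
    exact (sub_eq_zero.1 (by rw [← h2]; ring)).symm
  have hu : IsPrimitiveRoot (ζ ^ c) p := hζ.pow_of_coprime c hcop
  have hsum := hu.geom_sum_eq_zero hp.one_lt
  have hp' : (p : L) = (1 - ζ ^ c) *
      ∑ j ∈ Finset.range p, ∑ i ∈ Finset.range j, (ζ ^ c) ^ i := by
    rw [Finset.mul_sum]
    have : ∀ j ∈ Finset.range p, (1 - ζ ^ c) * ∑ i ∈ Finset.range j, (ζ ^ c) ^ i
        = 1 - (ζ ^ c) ^ j := by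
      intro j _
      rw [mul_comm, geom_sum_mul_neg]
    rw [Finset.sum_congr rfl this, Finset.sum_sub_distrib, hsum]
    simp
  have hmem : (p : L) ∈ A.nonunits := by
    rw [hp']
    exact mul_mem_nonunits A h1 (sum_mem fun j _ => sum_mem fun i _ => pow_mem (pow_mem hζA _) _)
  have hnd : ¬ (ℓ : ℤ) ∣ (p : ℤ) := by
    rw [Int.natCast_dvd_natCast, Nat.prime_dvd_prime_iff_eq hℓ hp]
    exact hℓp
  exact intCast_not_mem_nonunits A hℓ hA hnd (by simpa using hmem)

end General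

local notation "Qb" => AlgebraicClosure ℚ
local notation "GQ" => (AlgebraicClosure ℚ ≃ₐ[ℚ] AlgebraicClosure ℚ)

/-- The mod `p` cyclotomic character with values in a field of characteristic `p`. -/
theorem exists_cyclo (p : ℕ) (hp : p.Prime) (k : Type*) [Field k] [CharP k p] :
    ∃ d : GQ →* k,
      (∃ F : IntermediateField ℚ Qb, FiniteDimensional ℚ F ∧
        ∀ σ : GQ, (∀ x ∈ F, σ x = x) → d σ = 1) ∧
      (∀ ℓ : ℕ, ℓ.Prime → ℓ ≠ p → ∀ A : ValuationSubring Qb, A.LiesOverPrime ℓ →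
        (∀ σ : GQ, A.IsFrobeniusAt σ ℓ → d σ = (ℓ : k)) ∧
        (∀ σ ∈ A.inertiaSubgroupIn ℚ, d σ = 1)) := by
  classical
  haveI : NeZero p := ⟨hp.ne_zero⟩
  obtain ⟨ζ, hζ⟩ := HasEnoughRootsOfUnity.exists_primitiveRoot Qb p
  have hex : ∀ σ : GQ, ∃ i : ℕ, ζ ^ i = σ ζ := by
    intro σ
    have h1 : (σ ζ) ^ p = 1 := by rw [← map_pow, hζ.pow_eq_one, map_one]
    obtain ⟨i, _, hi⟩ := hζ.eq_pow_of_pow_eq_one h1
    exact ⟨i, hi⟩
  choose e he using hex
  have hcast : ∀ a b : ℕ, ζ ^ a = ζ ^ b → (a : k) = (b : k) := by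
    intro a b hab
    rw [CharP.natCast_eq_natCast k p]
    have hfin : IsOfFinOrder ζ := isOfFinOrder_iff_pow_eq_one.2 ⟨p, hp.pos, hζ.pow_eq_one⟩
    have := hfin.pow_eq_pow_iff_modEq.1 hab
    rwa [← hζ.eq_orderOf] at this
  have hcast' : ∀ a b : ℕ, (a : ZMod p) = (b : ZMod p) → (a : k) = (b : k) := by
    intro a b hab
    rw [CharP.natCast_eq_natCast k p]
    exact (ZMod.natCast_eq_natCast_iff a b p).1 hab
  let d : GQ →* k :=
    { toFun := fun σ => (e σ : k)
      map_one' := by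
        rw [← Nat.cast_one]
        apply hcast
        rw [he, pow_one]
        rfl
      map_mul' := by
        intro σ τ
        rw [← Nat.cast_mul]
        apply hcast
        rw [he, AlgEquiv.mul_apply, ← he τ, map_pow, ← he σ, ← pow_mul] }
  have hζA : ∀ A : ValuationSubring Qb, ζ ∈ A := fun A => integral_mem A ⟨Polynomial.X ^ p - 1,
    Polynomial.monic_X_pow_sub_C (1 : ℤ) hp.ne_zero, by simp [hζ.pow_eq_one]⟩
  refine ⟨d, ⟨IntermediateField.adjoin ℚ {ζ}, ?_, ?_⟩, ?_⟩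
  · exact IntermediateField.adjoin.finiteDimensional ⟨Polynomial.X ^ p - 1,
      Polynomial.monic_X_pow_sub_C (1 : ℚ) hp.ne_zero, by simp [hζ.pow_eq_one]⟩
  · intro σ hσ
    change (e σ : k) = 1
    rw [← Nat.cast_one]
    apply hcast
    rw [he, pow_one]
    exact hσ ζ (IntermediateField.mem_adjoin_simple_self ℚ ζ)
  · intro ℓ hℓ hℓp A hA
    refine ⟨?_, ?_⟩
    · intro σ hσ
      change (e σ : k) = (ℓ : k)
      apply hcast'
      apply natCast_eq_of_pow_sub_pow_mem A hℓ hp hA hℓp hζ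
      rw [he]
      exact frobenius_congr A hσ (hζA A)
    · intro σ hσ
      change (e σ : k) = 1
      rw [← Nat.cast_one]
      apply hcast'
      apply natCast_eq_of_pow_sub_pow_mem A hℓ hp hA hℓp hζ
      rw [he, pow_one]
      exact inertia_congr' A hσ (hζA A)

end Fermat.Agent.GAL.ModP
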