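import Fermat.Agent.Lib.QuadRep.Abstract
import Fermat.Agent.Lib.QuadRep.Powers
import Fermat.Agent.GAL.Interface

set_option autoImplicit false

namespace Fermat.Agent.GAL.ModP

open Polynomial Fermat.Agent.Lib.QuadRep

/-- A "Frobenius system" over the field `k`: a nonzero finite dimensional representation of `G_ℚ`
factoring through a finite quotient, unramified outside the finite set `B`, in which the Frobenius
elements at `ℓ ∉ B` satisfy `σ² - a ℓ σ + ℓ = 0`. -/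
structure FrobSys (k : Type) [Field k] (a : ℕ → k) where
  E : Type
  [instAddCommGroup : AddCommGroup E]
  [instModule : Module k E]
  [instFinite : Module.Finite k E]
  [instNontrivial : Nontrivial E]
  r : GQ →* Module.End k E
  level : GaloisFactorsThroughFiniteLevel r
  B : Finset ℕ
  unram : ∀ ℓ : ℕ, ℓ.Prime → ℓ ∉ B →
    ∀ A : ValuationSubring (AlgebraicClosure ℚ), A.LiesOverPrime ℓ →
      ∀ σ ∈ A.inertiaSubgroupIn ℚ, r σ = 1
  frob : ∀ ℓ : ℕ, ℓ.Prime → ℓ ∉ B →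
    ∀ A : ValuationSubring (AlgebraicClosure ℚ), A.LiesOverPrime ℓ →
      ∀ σ : GQ, A.IsFrobeniusAt σ ℓ →
        r σ * r σ - a ℓ • r σ + (ℓ : k) • (1 : Module.End k E) = 0

attribute [instance] FrobSys.instAddCommGroup FrobSys.instModule FrobSys.instFinite
  FrobSys.instNontrivial

theorem eq_of_level {M : Type*} [Monoid M] (ρ : GQ →* M)
    (L : IntermediateField ℚ (AlgebraicClosure ℚ))
    (h : ∀ σ : GQ, (∀ x ∈ L, σ x = x) → ρ σ = 1) (g g' : GQ) (hgg' : ∀ x ∈ L, g' x = g x) :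
    ρ g' = ρ g := by
  have h1 : ρ (g⁻¹ * g') = 1 := by
    apply h
    intro x hx
    rw [AlgEquiv.mul_apply, hgg' x hx]
    exact AlgEquiv.symm_apply_apply g x
  have h2 : g' = g * (g⁻¹ * g') := by group
  rw [h2, map_mul, h1, mul_one]

variable {k : Type} [Field k] {a : ℕ → k}

/-- The quadratic relation. -/
def FrobSys.Rel (S : FrobSys k a) (d : GQ →* k) (g : GQ) (t : k) : Prop :=
  S.r g * S.r g - t • S.r g + d g • (1 : Module.End k S.E) = 0

theorem FrobSys.Rel.unique {S : FrobSys k a} {d : GQ →* k} {g : GQ} {t t' : k}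
    (h : S.Rel d g t) (h' : S.Rel d g t') : t = t' := by
  unfold FrobSys.Rel at h h'
  have h1 : (t - t') • S.r g = 0 := by
    rw [sub_smul]
    have : (S.r g * S.r g - t' • S.r g + d g • (1 : Module.End k S.E)) -
        (S.r g * S.r g - t • S.r g + d g • (1 : Module.End k S.E)) = 0 := by rw [h, h', sub_zero]
    rw [← this]
    abel
  have h2 : (t - t') • (1 : Module.End k S.E) = 0 := by
    have : S.r g * S.r g⁻¹ = 1 := by rw [← map_mul, mul_inv_cancel, map_one]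
    rw [← this, ← smul_mul_assoc, h1, zero_mul]
  rcases smul_eq_zero.1 h2 with h3 | h3
  · exact sub_eq_zero.1 h3
  · exact absurd h3 one_ne_zero

theorem FrobSys.exists_rel (hdens : FrobeniusDensity) {p : ℕ} (d : GQ →* k)
    (hdlevel : GaloisFactorsThroughFiniteLevel d)
    (hdfrob : ∀ ℓ : ℕ, ℓ.Prime → ℓ ≠ p →
      ∀ A : ValuationSubring (AlgebraicClosure ℚ), A.LiesOverPrime ℓ →
        ∀ σ : GQ, A.IsFrobeniusAt σ ℓ → d σ = (ℓ : k))
    (S S' : FrobSys k a) (g : GQ) : ∃ t : k, S.Rel d g t ∧ S'.Rel d g t := by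
  obtain ⟨L1, hL1, h1⟩ := S.level
  obtain ⟨L2, hL2, h2⟩ := S'.level
  obtain ⟨L3, hL3, h3⟩ := hdlevel
  obtain ⟨ℓ, A, σ, b, hℓ, hℓB, hA, hσ, hb⟩ := hdens (L1 ⊔ L2 ⊔ L3) inferInstance g
    (S.B ∪ S'.B ∪ {p})
  simp only [Finset.mem_union, Finset.mem_singleton, not_or] at hℓB
  obtain ⟨⟨hB, hB'⟩, hℓp⟩ := hℓB
  have e1 : S.r (σ ^ b) = S.r g := eq_of_level S.r L1 h1 g (σ ^ b)
    fun x hx => hb x ((le_sup_left.trans le_sup_left : L1 ≤ L1 ⊔ L2 ⊔ L3) hx)
  have e2 : S'.r (σ ^ b) = S'.r g := eq_of_level S'.r L2 h2 g (σ ^ b)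
    fun x hx => hb x ((le_sup_right.trans le_sup_left : L2 ≤ L1 ⊔ L2 ⊔ L3) hx)
  have e3 : d (σ ^ b) = d g := eq_of_level d L3 h3 g (σ ^ b)
    fun x hx => hb x ((le_sup_right : L3 ≤ L1 ⊔ L2 ⊔ L3) hx)
  have r1 := S.frob ℓ hℓ hB A hA σ hσ
  have r2 := S'.frob ℓ hℓ hB' A hA σ hσ
  have r12 : ((S.r σ, S'.r σ) : Module.End k S.E × Module.End k S'.E) * (S.r σ, S'.r σ)
      - a ℓ • (S.r σ, S'.r σ) + (ℓ : k) • (1 : Module.End k S.E × Module.End k S'.E) = 0 :=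
    Prod.ext r1 r2
  obtain ⟨t, ht⟩ := quadratic_pow _ _ _ r12 b
  have hd : d g = (ℓ : k) ^ b := by rw [← e3, map_pow, hdfrob ℓ hℓ hℓp A hA σ hσ]
  refine ⟨t, ?_, ?_⟩
  · have := congrArg Prod.fst ht
    unfold FrobSys.Rel
    rw [← e1, map_pow, hd]
    exact this
  · have := congrArg Prod.snd ht
    unfold FrobSys.Rel
    rw [← e2, map_pow, hd]
    exact this

/-- **Gluing theorem.**  From Frobenius systems covering all good primes one gets a single two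
dimensional residual representation with the right characteristic polynomials of Frobenius and
unramified at all good primes. -/
theorem exists_residual_of_frobSys (hdens : FrobeniusDensity) [IsAlgClosed k] {p : ℕ}
    (d : GQ →* k) (hdlevel : GaloisFactorsThroughFiniteLevel d)
    (hdfrob : ∀ ℓ : ℕ, ℓ.Prime → ℓ ≠ p →
      ∀ A : ValuationSubring (AlgebraicClosure ℚ), A.LiesOverPrime ℓ →
        ∀ σ : GQ, A.IsFrobeniusAt σ ℓ → d σ = (ℓ : k))
    (hdinert : ∀ ℓ : ℕ, ℓ.Prime → ℓ ≠ p →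
      ∀ A : ValuationSubring (AlgebraicClosure ℚ), A.LiesOverPrime ℓ →
        ∀ σ ∈ A.inertiaSubgroupIn ℚ, d σ = 1)
    (good : ℕ → Prop) (hgoodp : ¬ good p) (S0 : FrobSys k a)
    (hsys : ∀ q : ℕ, q.Prime → good q → ∃ S : FrobSys k a, q ∉ S.B) :
    ∃ ρ : ResidualGaloisRep k,
      (∀ ℓ : ℕ, ℓ.Prime → good ℓ →
        ∀ A : ValuationSubring (AlgebraicClosure ℚ), A.LiesOverPrime ℓ →
          ∀ σ : GQ, A.IsFrobeniusAt σ ℓ →
            LinearMap.charpoly (ρ.ρ σ) = X ^ 2 - C (a ℓ) * X + C (ℓ : k)) ∧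
      (∀ ℓ : ℕ, ℓ.Prime → good ℓ → ρ.IsUnramifiedAt ℓ) := by
  have hq : ∀ g, ∃ t : k, S0.r g * S0.r g - t • S0.r g + d g • (1 : Module.End k S0.E) = 0 := by
    intro g
    obtain ⟨t, ht, -⟩ := FrobSys.exists_rel hdens d hdlevel hdfrob S0 S0 g
    exact ⟨t, ht⟩
  obtain ⟨V, iV1, iV2, iV3, ρ', hfin, hone, hchar, hker⟩ := exists_two_dim S0.r d hq
  have hlevel : GaloisFactorsThroughFiniteLevel ρ' := by
    obtain ⟨L1, hL1, h1⟩ := S0.level
    obtain ⟨L3, hL3, h3⟩ := hdlevel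
    refine ⟨L1 ⊔ L3, inferInstance, fun σ hσ => hone σ ?_ ?_⟩
    · exact h1 σ fun x hx => hσ x ((le_sup_left : L1 ≤ L1 ⊔ L3) hx)
    · exact h3 σ fun x hx => hσ x ((le_sup_right : L3 ≤ L1 ⊔ L3) hx)
  refine ⟨{ V := V, finrank_eq := hfin, ρ := ρ', factorsThroughFiniteLevel := hlevel }, ?_, ?_⟩
  · intro ℓ hℓ hgood A hA σ hσ
    have hℓp : ℓ ≠ p := fun h => hgoodp (h ▸ hgood)
    obtain ⟨S, hS⟩ := hsys ℓ hℓ hgood
    obtain ⟨t, ht0, ht⟩ := FrobSys.exists_rel hdens d hdlevel hdfrob S0 S σ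
    have hrel : S.Rel d σ (a ℓ) := by
      unfold FrobSys.Rel
      rw [hdfrob ℓ hℓ hℓp A hA σ hσ]
      exact S.frob ℓ hℓ hS A hA σ hσ
    have htt : t = a ℓ := ht.unique hrel
    have := hchar σ t ht0
    rw [htt, hdfrob ℓ hℓ hℓp A hA σ hσ] at this
    exact this
  · intro ℓ hℓ hgood A hA h hh
    have hℓp : ℓ ≠ p := fun h => hgoodp (h ▸ hgood)
    obtain ⟨S, hS⟩ := hsys ℓ hℓ hgood
    have hr1 : S.r h = 1 := S.unram ℓ hℓ hS A hA h hh
    have hd1 : d h = 1 := hdinert ℓ hℓ hℓp A hA h hh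
    apply hker
    intro g
    obtain ⟨t, ht0, ht⟩ := FrobSys.exists_rel hdens d hdlevel hdfrob S0 S g
    obtain ⟨t', ht0', ht'⟩ := FrobSys.exists_rel hdens d hdlevel hdfrob S0 S (g * h)
    have ht'' : S.Rel d g t' := by
      unfold FrobSys.Rel at ht' ⊢
      rwa [map_mul, map_mul, hr1, hd1, mul_one, mul_one] at ht'
    have htt : t' = t := ht''.unique ht
    rw [hchar g t ht0, hchar (g * h) t' ht0', htt, map_mul, hd1, mul_one]

end Fermat.Agent.GAL.ModP
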