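import Fermat.Agent.GAL.ALG.Defs
import Fermat.Agent.GAL.ModP.Glue
import Fermat.Agent.GAL.ModP.Eigen
import Fermat.Agent.Lib.QuadRep.EigenRed

set_option autoImplicit false

namespace Fermat.Agent.GAL.ModP

open Polynomial Fermat.Agent.Lib.QuadRep ModularFormClass Matrix

/-- The `ℓ`-th `q`-coefficient as an algebraic integer (junk value `0` if it is not integral). -/
noncomputable def coeffInt (g : UpperHalfPlane → ℂ) (ℓ : ℕ) : integralClosure ℤ ℂ :=
  open Classical in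
  if h : IsIntegral ℤ (qCoeff g ℓ) then ⟨qCoeff g ℓ, h⟩ else 0

theorem coe_coeffInt {g : UpperHalfPlane → ℂ} {ℓ : ℕ} (h : IsIntegral ℤ (qCoeff g ℓ)) :
    ((coeffInt g ℓ : integralClosure ℤ ℂ) : ℂ) = qCoeff g ℓ := by
  unfold coeffInt
  rw [dif_pos h]

variable {N M p : ℕ} [NeZero N] [Fact p.Prime]

theorem per_eigen (D : ESDatumAt N M p) {g : CuspForm (CongruenceSubgroup.Gamma0 N) 2}
    (hg : g.IsNormalizedEigenform) {ℓ : ℕ} (hℓ : ℓ.Prime) (hℓN : ¬ ℓ ∣ N) (hℓM : ¬ ℓ ∣ M) :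
    ((D.T ℓ).map (Int.castRingHom ℂ)) *ᵥ (D.per g) = qCoeff g ℓ • D.per g := by
  rw [← D.per_T ℓ hℓ hℓN hℓM g, heckeTLin_eq_smul hg hℓ hℓN, map_smul]

theorem per_ne_zero (D : ESDatumAt N M p) {g : CuspForm (CongruenceSubgroup.Gamma0 N) 2}
    (hg : g.IsNormalizedEigenform) : D.per g ≠ 0 := by
  intro h
  apply eigenform_ne_zero hg
  apply D.per_injective
  rw [h, map_zero]

theorem isIntegral_qCoeff (D : ESDatumAt N M p) {g : CuspForm (CongruenceSubgroup.Gamma0 N) 2}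
    (hg : g.IsNormalizedEigenform) {ℓ : ℕ} (hℓ : ℓ.Prime) (hℓN : ¬ ℓ ∣ N) (hℓM : ¬ ℓ ∣ M) :
    IsIntegral ℤ (qCoeff g ℓ) := by
  have h1 : Module.End.HasEigenvalue (Matrix.toLin' ((D.T ℓ).map (Int.castRingHom ℂ)))
      (qCoeff g ℓ) := by
    apply Module.End.hasEigenvalue_of_hasEigenvector (x := D.per g)
    rw [Module.End.hasEigenvector_iff]
    refine ⟨?_, per_ne_zero D hg⟩
    rw [Module.End.mem_eigenspace_iff, Matrix.toLin'_apply]
    exact per_eigen D hg hℓ hℓN hℓM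
  rw [Module.End.hasEigenvalue_iff_isRoot_charpoly, Matrix.charpoly_toLin'] at h1
  refine ⟨(D.T ℓ).charpoly, Matrix.charpoly_monic _, ?_⟩
  have h2 : ((D.T ℓ).map (Int.castRingHom ℂ)).charpoly
      = ((D.T ℓ).charpoly).map (Int.castRingHom ℂ) := by
    have := Matrix.charpoly_map (D.T ℓ) (Int.castRingHom ℂ)
    exact this
  rw [h2, Polynomial.IsRoot.def, Polynomial.eval_map] at h1
  exact h1

section Construct

variable {k : Type} [Field k] [CharP k p]

/-- The reduction map `ℤ_p → k`. -/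
noncomputable def iotaK (p : ℕ) [Fact p.Prime] (k : Type) [Field k] [CharP k p] : ℤ_[p] →+* k :=
  (ZMod.castHom (dvd_refl p) k).comp PadicInt.toZMod

theorem iotaK_eq_zero {x : ℤ_[p]} (h : (p : ℤ_[p]) ∣ x) : iotaK p k x = 0 := by
  obtain ⟨y, rfl⟩ := h
  rw [map_mul, map_natCast, CharP.cast_eq_zero, zero_mul]

/-- The mod `p` representation on `k ^ r`. -/
noncomputable def rhoK (D : ESDatumAt N M p) (k : Type) [Field k] [CharP k p] :
    GQ →* Module.End k (Fin D.r → k) where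
  toFun σ := Matrix.toLin' ((D.ρ σ).map (iotaK p k))
  map_one' := by
    rw [map_one, Matrix.map_one _ (map_zero _) (map_one _), Matrix.toLin'_one]
    rfl
  map_mul' σ τ := by
    rw [map_mul, Matrix.map_mul, Matrix.toLin'_mul]
    rfl

theorem rhoK_apply (D : ESDatumAt N M p) (σ : GQ) (x : Fin D.r → k) :
    rhoK D k σ x = ((D.ρ σ).map (iotaK p k)) *ᵥ x := rfl

theorem map_map_T (D : ESDatumAt N M p) (ℓ : ℕ) :
    ((D.T ℓ).map (Int.castRingHom ℤ_[p])).map (iotaK p k) = (D.T ℓ).map (Int.castRingHom k) := by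
  ext i j
  simp

theorem rhoK_comm (D : ESDatumAt N M p) (σ : GQ) (ℓ : ℕ) :
    ((D.ρ σ).map (iotaK p k)) * (D.T ℓ).map (Int.castRingHom k) =
      (D.T ℓ).map (Int.castRingHom k) * ((D.ρ σ).map (iotaK p k)) := by
  rw [← map_map_T D ℓ, ← Matrix.map_mul, ← Matrix.map_mul, D.ρ_T]

/-- The joint eigenspace. -/
def eigenK (D : ESDatumAt N M p) (c : ℕ → k) : Submodule k (Fin D.r → k) where
  carrier := {x | ∀ ℓ : ℕ, ℓ.Prime → ¬ ℓ ∣ N → ¬ ℓ ∣ M →
    (D.T ℓ).map (Int.castRingHom k) *ᵥ x = c ℓ • x}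
  add_mem' := by
    intro x y hx hy ℓ h1 h2 h3
    rw [Matrix.mulVec_add, hx ℓ h1 h2 h3, hy ℓ h1 h2 h3, smul_add]
  zero_mem' := by
    intro ℓ _ _ _
    rw [Matrix.mulVec_zero, smul_zero]
  smul_mem' := by
    intro a x hx ℓ h1 h2 h3
    rw [Matrix.mulVec_smul, hx ℓ h1 h2 h3, smul_comm]

theorem eigenK_stable (D : ESDatumAt N M p) (c : ℕ → k) (σ : GQ) (x : Fin D.r → k)
    (hx : x ∈ eigenK D c) : rhoK D k σ x ∈ eigenK D c := by
  intro ℓ h1 h2 h3
  rw [rhoK_apply, Matrix.mulVec_mulVec, ← rhoK_comm, ← Matrix.mulVec_mulVec, hx ℓ h1 h2 h3,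
    Matrix.mulVec_smul]

theorem eigenK_ne_bot (D : ESDatumAt N M p) {g : CuspForm (CongruenceSubgroup.Gamma0 N) 2}
    (hg : g.IsNormalizedEigenform) (φ : integralClosure ℤ ℂ →+* k)
    (hφ : Function.Surjective φ) :
    ∃ x : Fin D.r → k, x ≠ 0 ∧ x ∈ eigenK D (fun ℓ => φ (coeffInt g ℓ)) := by
  obtain ⟨x, hx0, hx⟩ := exists_eigenvector_of_reduction (R := integralClosure ℤ ℂ) (C := ℂ)
    (ι := {ℓ : ℕ // ℓ.Prime ∧ ¬ ℓ ∣ N ∧ ¬ ℓ ∣ M}) Subtype.val_injective φ hφ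
    (fun i => (D.T i.1).map (Int.castRingHom (integralClosure ℤ ℂ)))
    (by
      intro i j
      rw [← Matrix.map_mul, ← Matrix.map_mul, D.T_comm])
    (fun i => coeffInt g i.1) (D.per g) (per_ne_zero D hg)
    (by
      intro i
      have h1 : ((D.T i.1).map (Int.castRingHom (integralClosure ℤ ℂ))).map
          (algebraMap (integralClosure ℤ ℂ) ℂ) = (D.T i.1).map (Int.castRingHom ℂ) := by
        ext a b
        simp
      rw [h1, per_eigen D hg i.2.1 i.2.2.1 i.2.2.2]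
      congr 1
      exact (coe_coeffInt (isIntegral_qCoeff D hg i.2.1 i.2.2.1 i.2.2.2)).symm)
  refine ⟨x, hx0, ?_⟩
  intro ℓ h1 h2 h3
  have := hx ⟨ℓ, h1, h2, h3⟩
  have h4 : ((D.T ℓ).map (Int.castRingHom (integralClosure ℤ ℂ))).map φ
      = (D.T ℓ).map (Int.castRingHom k) := by
    ext a b
    simp
  rw [← h4]
  exact this

theorem rhoK_eq_one_of_dvd (D : ESDatumAt N M p) (σ : GQ)
    (h : ∀ i j, (p : ℤ_[p]) ∣ (D.ρ σ - 1) i j) : rhoK D k σ = 1 := by
  have h1 : (D.ρ σ).map (iotaK p k) = 1 := by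
    ext i j
    have h2 := iotaK_eq_zero (k := k) (h i j)
    rw [Matrix.sub_apply, map_sub, sub_eq_zero] at h2
    rw [Matrix.map_apply, h2, Matrix.one_apply, Matrix.one_apply]
    split_ifs <;> simp
  change Matrix.toLin' ((D.ρ σ).map (iotaK p k)) = 1
  rw [h1, Matrix.toLin'_one]
  rfl

theorem rhoK_eq_one_of_eq_one (D : ESDatumAt N M p) (σ : GQ) (h : D.ρ σ = 1) :
    rhoK D k σ = 1 := by
  apply rhoK_eq_one_of_dvd
  intro i j
  rw [h, sub_self]
  exact dvd_zero _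

theorem restrictRep_eq_one {G W : Type*} [Group G] [AddCommGroup W] [Module k W]
    (ρ : G →* Module.End k W) (U : Submodule k W) (hU : ∀ g, ∀ x ∈ U, ρ g x ∈ U) (g : G)
    (h : ρ g = 1) : restrictRep ρ U hU g = 1 := by
  ext x
  rw [restrictRep_apply, h]
  rfl

theorem exists_frobSys (hM : M ≠ 0) (D : ESDatumAt N M p)
    {g : CuspForm (CongruenceSubgroup.Gamma0 N) 2}
    (hg : g.IsNormalizedEigenform) (φ : integralClosure ℤ ℂ →+* k)
    (hφ : Function.Surjective φ) :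
    ∃ S : FrobSys k (fun ℓ => φ (coeffInt g ℓ)), S.B = (N * M * p).primeFactors := by
  obtain ⟨x, hx0, hx⟩ := eigenK_ne_bot D hg φ hφ
  set c : ℕ → k := fun ℓ => φ (coeffInt g ℓ) with hc
  haveI : Nontrivial (eigenK D c) := ⟨⟨⟨x, hx⟩, 0, fun h => hx0 (congrArg Subtype.val h)⟩⟩
  have hp : p.Prime := Fact.out
  have hne : N * M * p ≠ 0 := mul_ne_zero (mul_ne_zero (NeZero.ne N) hM) hp.ne_zero
  have hnd : ∀ ℓ : ℕ, ℓ.Prime → ℓ ∉ (N * M * p).primeFactors → ¬ ℓ ∣ N * M * p := by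
    intro ℓ hℓ hmem hdvd
    exact hmem (Nat.mem_primeFactors.2 ⟨hℓ, hdvd, hne⟩)
  refine ⟨{ E := eigenK D c
            r := restrictRep (rhoK D k) (eigenK D c) (eigenK_stable D c)
            level := ?_
            B := (N * M * p).primeFactors
            unram := ?_
            frob := ?_ }, rfl⟩
  · obtain ⟨F, hF, h⟩ := D.ρ_cont 1
    refine ⟨F, hF, fun σ hσ => ?_⟩
    apply restrictRep_eq_one
    apply rhoK_eq_one_of_dvd
    intro i j
    have := h σ hσ i j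
    rwa [pow_one] at this
  · intro ℓ hℓ hB A hA σ hσ
    apply restrictRep_eq_one
    apply rhoK_eq_one_of_eq_one
    refine D.ρ_unram ℓ hℓ (fun hd => hnd ℓ hℓ hB ?_) A hA σ hσ
    rw [mul_assoc]
    exact Dvd.dvd.mul_left hd N
  · intro ℓ hℓ hB A hA σ hσ
    have hnd' := hnd ℓ hℓ hB
    have h1 : ¬ ℓ ∣ M * p := fun hd => hnd' (by rw [mul_assoc]; exact Dvd.dvd.mul_left hd N)
    have h2 : ¬ ℓ ∣ N := fun hd => hnd' (by rw [mul_assoc]; exact Dvd.dvd.mul_right hd _)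
    have h3 : ¬ ℓ ∣ M := fun hd => h1 (Dvd.dvd.mul_right hd _)
    have hES' : ((D.ρ σ).map (iotaK p k)) * ((D.ρ σ).map (iotaK p k))
        - (D.T ℓ).map (Int.castRingHom k) * ((D.ρ σ).map (iotaK p k))
        + (ℓ : Matrix (Fin D.r) (Fin D.r) k) = 0 := by
      have e := congrArg (RingHom.mapMatrix (iotaK p k)) (D.ρ_ES ℓ hℓ h1 A hA σ hσ)
      rw [map_add, map_sub, map_mul, map_mul, map_natCast, map_zero] at e
      simp only [RingHom.mapMatrix_apply] at e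
      rw [map_map_T] at e
      exact e
    apply LinearMap.ext
    intro y
    apply Subtype.ext
    have hy := eigenK_stable D c σ y.1 y.2 ℓ hℓ h2 h3
    have e2 := congrArg (fun X : Matrix (Fin D.r) (Fin D.r) k => X *ᵥ (y : Fin D.r → k)) hES'
    simp only [Matrix.add_mulVec, Matrix.sub_mulVec, Matrix.zero_mulVec,
      ← Matrix.mulVec_mulVec] at e2
    rw [← rhoK_apply, ← rhoK_apply, hy] at e2
    have e3 : (ℓ : Matrix (Fin D.r) (Fin D.r) k) *ᵥ (y : Fin D.r → k) = (ℓ : k) • (y : Fin D.r → k) := by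
      have : (ℓ : Matrix (Fin D.r) (Fin D.r) k) = (ℓ : k) • (1 : Matrix (Fin D.r) (Fin D.r) k) := by
        rw [Nat.cast_smul_eq_nsmul k, nsmul_eq_mul, mul_one]
      rw [this, Matrix.smul_mulVec, Matrix.one_mulVec]
    rw [e3] at e2
    simp only [LinearMap.add_apply, LinearMap.sub_apply, Module.End.mul_apply,
      LinearMap.smul_apply, Module.End.one_apply, LinearMap.zero_apply, Submodule.coe_add,
      Submodule.coe_sub, Submodule.coe_smul, restrictRep_apply, Submodule.coe_zero]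
    exact e2

end Construct

end Fermat.Agent.GAL.ModP
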