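import Fermat.Agent.GAL.ModP.Datum
import Fermat.Agent.GAL.ModP.Cyclo

set_option autoImplicit false

namespace Fermat.Agent.GAL.ModP

open Polynomial ModularFormClass

/-- The core statement over an algebraically closed field onto which `ℤ̄` surjects. -/
theorem exists_residual_core (hG : GeomInput) (hF : FrobeniusDensity)
    {N : ℕ} [NeZero N] {g : CuspForm (CongruenceSubgroup.Gamma0 N) 2}
    (hg : g.IsNormalizedEigenform) {p : ℕ} (hp : p.Prime) {k : Type} [Field k] [CharP k p]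
    [IsAlgClosed k] (φ : integralClosure ℤ ℂ →+* k) (hφ : Function.Surjective φ) :
    ∃ ρ : ResidualGaloisRep k, ρ.IsAttachedTo g φ ∧
      ∀ ℓ : ℕ, ℓ.Prime → ¬ ℓ ∣ N * p → ρ.IsUnramifiedAt ℓ := by
  haveI : Fact p.Prime := ⟨hp⟩
  obtain ⟨d, hdlevel, hd⟩ := exists_cyclo p hp k
  have hNp : N * p ≠ 0 := mul_ne_zero (NeZero.ne N) hp.ne_zero
  have hsys : ∀ q : ℕ, q.Prime → ¬ q ∣ N * p →
      ∃ S : FrobSys k (fun ℓ => φ (coeffInt g ℓ)), q ∉ S.B := by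
    intro q hq hqN
    obtain ⟨M, hqM, ⟨D⟩⟩ := hG N p q hq hqN
    have hM : M ≠ 0 := by
      rintro rfl
      exact hqM (dvd_zero q)
    obtain ⟨S, hS⟩ := exists_frobSys hM D hg φ hφ
    refine ⟨S, ?_⟩
    rw [hS]
    intro hmem
    have hdvd := (Nat.mem_primeFactors.1 hmem).2.1
    have : N * M * p = (N * p) * M := by ring
    rw [this] at hdvd
    rcases (Nat.Prime.dvd_mul hq).1 hdvd with h | h
    · exact hqN h
    · exact hqM h
  obtain ⟨q0, hq0, hq0p⟩ := Nat.exists_infinite_primes (N * p + 1)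
  have hq0N : ¬ q0 ∣ N * p := fun h => by
    have := Nat.le_of_dvd (Nat.pos_of_ne_zero hNp) h
    omega
  obtain ⟨S0, -⟩ := hsys q0 hq0p hq0N
  obtain ⟨ρ, hρ1, hρ2⟩ := exists_residual_of_frobSys hF (p := p) d hdlevel
    (fun ℓ hℓ hℓp A hA => (hd ℓ hℓ hℓp A hA).1) (fun ℓ hℓ hℓp A hA => (hd ℓ hℓ hℓp A hA).2)
    (fun ℓ => ¬ ℓ ∣ N * p) (fun h => h (Dvd.intro_left N rfl)) S0 hsys
  refine ⟨ρ, ?_, hρ2⟩
  intro ℓ hℓ hℓN hℓk A hA σ hσ
  have hgood : ¬ ℓ ∣ N * p := by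
    intro h
    rcases (Nat.Prime.dvd_mul hℓ).1 h with h | h
    · exact hℓN h
    · have : ℓ = p := (Nat.prime_dvd_prime_iff_eq hℓ hp).1 h
      apply hℓk
      rw [this, CharP.cast_eq_zero]
  obtain ⟨M, hqM, ⟨D⟩⟩ := hG N p ℓ hℓ hgood
  exact ⟨coeffInt g ℓ, coe_coeffInt (isIntegral_qCoeff D hg hℓ hℓN hqM), hρ1 ℓ hℓ hgood A hA σ hσ⟩

end Fermat.Agent.GAL.ModP
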