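import Mathlib

set_option autoImplicit false

namespace Fermat.Agent.GAL.ModP

open Polynomial

/-- A surjective image of `ℤ̄` which is a field is algebraically closed. -/
theorem isAlgClosed_of_surjective {k : Type*} [Field k] (φ : integralClosure ℤ ℂ →+* k)
    (hφ : Function.Surjective φ) : IsAlgClosed k := by
  apply IsAlgClosed.of_exists_root
  intro P hP hirr
  have hlift : P ∈ Polynomial.lifts φ := by
    rw [Polynomial.mem_lifts]
    exact Polynomial.map_surjective φ hφ P
  obtain ⟨Q, hQP, hdeg, hQ⟩ := Polynomial.lifts_and_natDegree_eq_and_monic hlift hP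
  have hdeg' : (Q.map (algebraMap (integralClosure ℤ ℂ) ℂ)).degree ≠ 0 := by
    rw [hQ.degree_map, Polynomial.degree_eq_natDegree hQ.ne_zero, hdeg]
    have := hirr.natDegree_pos
    exact_mod_cast this.ne'
  obtain ⟨z, hz⟩ := IsAlgClosed.exists_root _ hdeg'
  have hz1 : IsIntegral (integralClosure ℤ ℂ) z := by
    refine ⟨Q, hQ, ?_⟩
    rwa [Polynomial.IsRoot.def, Polynomial.eval_map] at hz
  have hz2 : IsIntegral ℤ z := isIntegral_trans z hz1
  refine ⟨φ ⟨z, hz2⟩, ?_⟩
  rw [← hQP, Polynomial.eval_map, Polynomial.eval₂_at_apply]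
  have h0 : Q.eval (⟨z, hz2⟩ : integralClosure ℤ ℂ) = 0 := by
    apply Subtype.val_injective
    rw [Polynomial.IsRoot.def, Polynomial.eval_map] at hz
    have h1 : ((Q.eval (⟨z, hz2⟩ : integralClosure ℤ ℂ) : integralClosure ℤ ℂ) : ℂ)
        = Q.eval₂ (algebraMap (integralClosure ℤ ℂ) ℂ) z := by
      have := Polynomial.eval₂_at_apply (p := Q) (algebraMap (integralClosure ℤ ℂ) ℂ)
        (⟨z, hz2⟩ : integralClosure ℤ ℂ)
      exact this.symm
    rw [h1, hz]
    rfl
  rw [h0, map_zero]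

theorem ker_isMaximal {k : Type*} [Field k] {p : ℕ} (hp : p.Prime) [CharP k p]
    (φ : integralClosure ℤ ℂ →+* k) : (RingHom.ker φ).IsMaximal := by
  haveI : (RingHom.ker φ).IsPrime := RingHom.ker_isPrime φ
  apply Ideal.isMaximal_of_isIntegral_of_isMaximal_comap (R := ℤ)
  have hprime : ((RingHom.ker φ).comap (algebraMap ℤ (integralClosure ℤ ℂ))).IsPrime :=
    Ideal.comap_isPrime _ _
  apply hprime.isMaximal
  intro hbot
  have hmem : (p : ℤ) ∈ (RingHom.ker φ).comap (algebraMap ℤ (integralClosure ℤ ℂ)) := by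
    rw [Ideal.mem_comap, RingHom.mem_ker]
    simp
  rw [hbot, Ideal.mem_bot] at hmem
  exact hp.ne_zero (by exact_mod_cast hmem)

end Fermat.Agent.GAL.ModP
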