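import Fermat.Agent.GAL.ModP.Main
import Fermat.Agent.GAL.ModP.ResField

set_option autoImplicit false

namespace Fermat.Agent.GAL.ModP

open Polynomial ModularFormClass

/-- The trivial two dimensional residual representation. -/
noncomputable def trivialRep (k : Type) [Field k] : ResidualGaloisRep k where
  V := Fin 2 → k
  finrank_eq := by simp
  ρ := 1
  factorsThroughFiniteLevel := ⟨⊥, inferInstance, fun _ _ => rfl⟩

theorem baseChange_isAttachedTo {k0 k : Type} [Field k0] [Field k] [Algebra k0 k]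
    (ρ0 : ResidualGaloisRep k0) {N : ℕ} {g : CuspForm (CongruenceSubgroup.Gamma0 N) 2}
    (φ0 : integralClosure ℤ ℂ →+* k0) (φ : integralClosure ℤ ℂ →+* k)
    (hφ : ∀ a, algebraMap k0 k (φ0 a) = φ a) (h : ρ0.IsAttachedTo g φ0) :
    (ρ0.baseChange k).IsAttachedTo g φ := by
  intro ℓ hℓ hℓN hℓk A hA σ hσ
  have hℓk0 : (ℓ : k0) ≠ 0 := by
    intro h0
    apply hℓk
    rw [← map_natCast (algebraMap k0 k), h0, map_zero]
  obtain ⟨a, ha, hchar⟩ := h ℓ hℓ hℓN hℓk0 A hA σ hσ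
  refine ⟨a, ha, ?_⟩
  change LinearMap.charpoly ((ρ0.ρ σ).baseChange k) = _
  rw [LinearMap.charpoly_baseChange, hchar]
  simp [hφ]

theorem baseChange_isUnramifiedAt {k0 k : Type} [Field k0] [Field k] [Algebra k0 k]
    (ρ0 : ResidualGaloisRep k0) {ℓ : ℕ} (h : ρ0.IsUnramifiedAt ℓ) :
    (ρ0.baseChange k).IsUnramifiedAt ℓ := by
  intro A hA σ hσ
  change (ρ0.ρ σ).baseChange k = 1
  rw [h A hA σ hσ, LinearMap.baseChange_one]

/-- **S29 from the geometric input and Frobenius density.** -/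
theorem s29_of_geomInput (hG : GeomInput) (hF : FrobeniusDensity)
    {N : ℕ} {g : CuspForm (CongruenceSubgroup.Gamma0 N) 2} (hg : g.IsNormalizedEigenform)
    {p : ℕ} (hp : p.Prime) {k : Type} [Field k] [CharP k p]
    (φ : integralClosure ℤ ℂ →+* k) :
    ∃ ρ : ResidualGaloisRep k, ρ.IsAttachedTo g φ ∧
      ∀ ℓ : ℕ, ℓ.Prime → ¬ ℓ ∣ N * p → ρ.IsUnramifiedAt ℓ := by
  rcases Nat.eq_zero_or_pos N with rfl | hN
  · refine ⟨trivialRep k, ?_, ?_⟩
    · intro ℓ _ hℓ
      exact absurd (dvd_zero ℓ) hℓ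
    · intro ℓ _ hℓ
      rw [zero_mul] at hℓ
      exact absurd (dvd_zero ℓ) hℓ
  · haveI : NeZero N := ⟨hN.ne'⟩
    haveI hmax : (RingHom.ker φ).IsMaximal := ker_isMaximal hp φ
    letI : Field (integralClosure ℤ ℂ ⧸ RingHom.ker φ) := Ideal.Quotient.field _
    haveI : CharP (integralClosure ℤ ℂ ⧸ RingHom.ker φ) p :=
      RingHom.charP (RingHom.kerLift φ) (RingHom.kerLift_injective φ) p
    haveI : IsAlgClosed (integralClosure ℤ ℂ ⧸ RingHom.ker φ) :=
      isAlgClosed_of_surjective (Ideal.Quotient.mk (RingHom.ker φ)) Ideal.Quotient.mk_surjective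
    obtain ⟨ρ0, h1, h2⟩ := exists_residual_core hG hF hg hp (Ideal.Quotient.mk (RingHom.ker φ))
      Ideal.Quotient.mk_surjective
    letI : Algebra (integralClosure ℤ ℂ ⧸ RingHom.ker φ) k := (RingHom.kerLift φ).toAlgebra
    refine ⟨ρ0.baseChange k, ?_, ?_⟩
    · exact baseChange_isAttachedTo ρ0 _ φ (fun a => RingHom.kerLift_mk φ a) h1
    · intro ℓ hℓ hℓN
      exact baseChange_isUnramifiedAt ρ0 (h2 ℓ hℓ hℓN)

end Fermat.Agent.GAL.ModP
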