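import Fermat.Agent.Lib.QuadRep.Kernel
import Fermat.Agent.S13.FieldOfDef
import Fermat.Prelude.Def_GaloisRep_Residual
import Fermat.Prelude.Def_FreyPackage_EigenformResidualAttachment

set_option autoImplicit false

namespace Fermat.Agent.GAL.ModP

open Polynomial ModularFormClass Fermat.Agent.Lib.QuadRep
open WeierstrassCurve WeierstrassCurve.Affine.Point

local notation "Qb" => AlgebraicClosure ℚ
local notation "GQ'" => (AlgebraicClosure ℚ ≃ₐ[ℚ] AlgebraicClosure ℚ)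

/-- The statement S29. -/
def S29Statement : Prop :=
  ∀ {N : ℕ} {g : CuspForm (CongruenceSubgroup.Gamma0 N) 2} (_ : g.IsNormalizedEigenform)
    {p : ℕ} (_ : p.Prime) {k : Type} [Field k] [CharP k p]
    (φ : integralClosure ℤ ℂ →+* k),
    ∃ ρ : ResidualGaloisRep k, ρ.IsAttachedTo g φ ∧
      ∀ ℓ : ℕ, ℓ.Prime → ¬ ℓ ∣ N * p → ρ.IsUnramifiedAt ℓ

/-- Every finite subextension of `ℚ̄` is contained in a Galois number field (packaged in the form
needed for S42). -/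
theorem exists_galois_numberField (L : IntermediateField ℚ Qb) [FiniteDimensional ℚ L] :
    ∃ (F : Type) (_ : Field F) (_ : NumberField F) (_ : IsGalois ℚ F)
      (_ : Algebra F Qb) (_ : IsScalarTower ℚ F Qb),
      ∀ σ : GQ', σ ∈ (AlgEquiv.restrictNormalHom (F := ℚ) (K₁ := Qb) F).ker → ∀ x ∈ L, σ x = x := by
  have hG := Fermat.Agent.Lib.Frobenius.isGalois_algebraicClosure inferInstance
  haveI : Normal ℚ Qb := hG.to_normal
  let F0 : IntermediateField ℚ Qb := IntermediateField.normalClosure ℚ L Qb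
  haveI h1 : FiniteDimensional ℚ F0 := normalClosure.is_finiteDimensional ℚ L Qb
  haveI h2 : Normal ℚ F0 := normalClosure.normal ℚ L Qb
  haveI h3 : NumberField F0 := { to_charZero := inferInstance, to_finiteDimensional := h1 }
  haveI h4 : IsGalois ℚ F0 := { }
  refine ⟨F0, inferInstance, h3, h4, inferInstance, inferInstance, ?_⟩
  intro σ hσ x hx
  have hx' : x ∈ F0 := IntermediateField.le_normalClosure L hx
  rw [MonoidHom.mem_ker] at hσ
  have h5 := AlgEquiv.restrictNormal_commutes σ F0 ⟨x, hx'⟩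
  have h6 : AlgEquiv.restrictNormal σ F0 = 1 := hσ
  rw [h6] at h5
  exact h5.symm

/-- **S42 from S29.** -/
theorem s42_of_s29 (h29 : S29Statement) (P : FreyPackage) :
    ∀ M : ℕ, 0 < M → P.EigenformResidualAttachmentAt M := by
  intro M _ g hg 𝔪 h𝔪 hp𝔪
  letI : Field (integralClosure ℤ ℂ ⧸ 𝔪) := Ideal.Quotient.field 𝔪
  haveI hchar : CharP (integralClosure ℤ ℂ ⧸ 𝔪) P.p := by
    rw [CharP.charP_iff_prime_eq_zero P.pp]
    have : ((P.p : integralClosure ℤ ℂ ⧸ 𝔪)) = Ideal.Quotient.mk 𝔪 (P.p : integralClosure ℤ ℂ) := by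
      simp
    rw [this, Ideal.Quotient.eq_zero_iff_mem]
    exact hp𝔪
  obtain ⟨ρ, hatt, -⟩ := h29 hg P.pp (Ideal.Quotient.mk 𝔪)
  obtain ⟨L1, hL1, h1⟩ := ρ.factorsThroughFiniteLevel
  obtain ⟨L2, hL2, h2⟩ := Fermat.Agent.S13.frey_exists_field_of_def P
  obtain ⟨F, iF1, iF2, iF3, iF4, iF5, hF⟩ := exists_galois_numberField (L1 ⊔ L2)
  have hne : ∀ ℓ : ℕ, ℓ.Prime → ℓ ≠ P.p → ((ℓ : integralClosure ℤ ℂ ⧸ 𝔪)) ≠ 0 := by
    intro ℓ hℓ hℓp h0
    rw [CharP.cast_eq_zero_iff _ P.p] at h0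
    exact hℓp ((Nat.prime_dvd_prime_iff_eq P.pp hℓ).1 h0).symm
  refine ⟨integralClosure ℤ ℂ ⧸ 𝔪, inferInstance, ZMod.algebra _ P.p, ρ.V, inferInstance,
    inferInstance, ρ.ρ, Ideal.Quotient.mk 𝔪, F, iF1, iF2, iF3, iF4, iF5, ?_, ρ.finrank_eq, ?_, ?_, ?_⟩
  · rw [Ideal.mk_ker]
  · intro σ hσ
    have hfix := hF σ hσ
    rw [Subgroup.mem_inf]
    refine ⟨?_, ?_⟩
    · rw [MonoidHom.mem_ker]
      apply LinearMap.ext
      intro x
      rw [galoisRepModuleEnd_apply]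
      refine h2 σ ?_ x
      rw [IntermediateField.mem_fixingSubgroup_iff]
      exact fun x hx => hfix x ((le_sup_right : L2 ≤ L1 ⊔ L2) hx)
    · rw [MonoidHom.mem_ker]
      exact h1 σ fun x hx => hfix x ((le_sup_left : L1 ≤ L1 ⊔ L2) hx)
  · intro ℓ hℓ hℓM hℓp A hA τ hτ
    obtain ⟨a, ha, hc⟩ := hatt ℓ hℓ hℓM (hne ℓ hℓ hℓp) A hA τ hτ
    refine ⟨a, ha, ?_⟩
    rw [charpoly_of_finrank_two ρ.finrank_eq] at hc
    exact (quad_inj hc).1
  · intro ℓ hℓ hℓM hℓp A hA τ hτ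
    obtain ⟨a, ha, hc⟩ := hatt ℓ hℓ hℓM (hne ℓ hℓ hℓp) A hA τ hτ
    rw [charpoly_of_finrank_two ρ.finrank_eq] at hc
    exact (quad_inj hc).2

end Fermat.Agent.GAL.ModP
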